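import Mathlib.AlgebraicGeometry.EllipticCurve.Weierstrass
import Mathlib.Tactic.FieldSimp
import Mathlib.Tactic.LinearCombination
import Mathlib.Tactic.Ring

/-!
# Algebra of a `3`-subgroup together with a `5`-subgroup

Let `x₁, x₂` be the abscissae of `P, 2P` for a point `P` of order `5` and `x₀` that of a point of
order `3`. The three quantities `v`, `S`, `M` below are invariant under scaling and translation of
`x` and symmetric in `x₁, x₂`; they satisfy the equation of `X₀(15)` and determine `j`.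
-/

namespace Fermat.Agent.EC.Fifteen

variable {K : Type*} [Field K]

/-- The value of the polynomial `ψ₂²` at `x`. -/
def psiTwoSq (W : WeierstrassCurve K) (x : K) : K :=
  4 * x ^ 3 + W.b₂ * x ^ 2 + 2 * W.b₄ * x + W.b₆

/-- The value of the polynomial `ψ₃` at `x`. -/
def psiThree (W : WeierstrassCurve K) (x : K) : K :=
  3 * x ^ 4 + W.b₂ * x ^ 3 + 3 * W.b₄ * x ^ 2 + 3 * W.b₆ * x + W.b₈

/-- The invariant `v = u (u - 1)`. -/
def invV (x₀ x₁ x₂ : K) : K := (x₀ - x₁) * (x₀ - x₂) / (x₂ - x₁) ^ 2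

/-- The invariant `S = b - 1/b`. -/
def invS (W : WeierstrassCurve K) (x₁ x₂ : K) : K :=
  -2 + (2 * W.b₄ + (x₁ + x₂) * W.b₂ + 6 * (x₁ ^ 2 + x₂ ^ 2)) / (x₂ - x₁) ^ 2

/-- The invariant `M = (b + 1/b) (2u - 1)`. -/
def invM (W : WeierstrassCurve K) (x₀ x₁ x₂ : K) : K :=
  (W.b₂ + 6 * (x₁ + x₂)) * (2 * x₀ - x₁ - x₂) / (x₂ - x₁) ^ 2

theorem fifteen_relations (W : WeierstrassCurve K) {x₀ x₁ x₂ : K} (hne : x₁ ≠ x₂)
    (h0 : psiThree W x₀ = 0) (hψ : psiTwoSq W x₁ ≠ 0)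
    (h12 : (x₂ - x₁) * psiTwoSq W x₁ = -psiThree W x₁)
    (h21 : (x₁ - x₂) * psiTwoSq W x₂ = -psiThree W x₂) :
    invV x₀ x₁ x₂ ≠ 0 ∧
    invM W x₀ x₁ x₂ ^ 2 = (4 * invV x₀ x₁ x₂ + 1) * (invS W x₁ x₂ ^ 2 + 4) ∧
    invM W x₀ x₁ x₂ * (invV x₀ x₁ x₂ + 1) + invS W x₁ x₂ * (3 * invV x₀ x₁ x₂ + 1)
      = -6 * invV x₀ x₁ x₂ ^ 2 ∧
    W.c₄ ^ 3 * (invS W x₁ x₂ - 11)
      = W.Δ * (invS W x₁ x₂ ^ 2 - 12 * invS W x₁ x₂ + 16) ^ 3 := by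
  unfold psiThree psiTwoSq at *
  obtain ⟨d, hd0, rfl⟩ : ∃ d, d ≠ 0 ∧ x₂ = x₁ + d :=
    ⟨x₂ - x₁, sub_ne_zero.2 (Ne.symm hne), by ring⟩
  obtain ⟨u, rfl⟩ : ∃ u, x₀ = x₁ + d * u := ⟨(x₀ - x₁) / d, by field_simp; ring⟩
  obtain ⟨q, hq⟩ : ∃ q, W.b₄ + x₁ * W.b₂ + 6 * x₁ ^ 2 = d ^ 2 * (1 - q) :=
    ⟨1 - (W.b₄ + x₁ * W.b₂ + 6 * x₁ ^ 2) / d ^ 2, by field_simp; ring⟩
  have hb6 : W.b₆ + 2 * x₁ * W.b₄ + x₁ ^ 2 * W.b₂ + 4 * x₁ ^ 3 = d ^ 3 * q := by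
    apply mul_left_cancel₀ hd0
    linear_combination h21 - h12 - d ^ 2 * hq
  have hq0 : q ≠ 0 := by
    rintro rfl
    exact hψ (by linear_combination hb6)
  have hb8 : W.b₈ + 3 * x₁ * W.b₆ + 3 * x₁ ^ 2 * W.b₄ + x₁ ^ 3 * W.b₂ + 3 * x₁ ^ 4
      = -(d ^ 4 * q) := by
    linear_combination h12 - d * hb6
  have hb2 : W.b₂ = d * (q + 1 / q - 6) - 12 * x₁ := by
    have hrel := W.b_relation
    field_simp
    apply mul_left_cancel₀ (pow_ne_zero 3 hd0)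
    linear_combination -hrel + 4 * hb8 - (W.b₂ + 12 * x₁) * hb6
      + (W.b₄ + x₁ * W.b₂ + 6 * x₁ ^ 2 + d ^ 2 * (1 - q)) * hq
  have hb4 : W.b₄ = d ^ 2 * (1 - q) - x₁ * W.b₂ - 6 * x₁ ^ 2 := by linear_combination hq
  have hb6' : W.b₆ = d ^ 3 * q - 2 * x₁ * W.b₄ - x₁ ^ 2 * W.b₂ - 4 * x₁ ^ 3 := by
    linear_combination hb6
  have hb8' : W.b₈ = -(d ^ 4 * q) - 3 * x₁ * W.b₆ - 3 * x₁ ^ 2 * W.b₄ - x₁ ^ 3 * W.b₂
      - 3 * x₁ ^ 4 := by linear_combination hb8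
  have hu : q * (3 * u ^ 4) + (q ^ 2 + 1 - 6 * q) * u ^ 3
      + 3 * (1 - q) * q * u ^ 2 + 3 * q ^ 2 * u - q ^ 2 = 0 := by
    apply mul_left_cancel₀ (pow_ne_zero 4 hd0)
    rw [mul_zero]
    rw [hb8', hb6', hb4, hb2] at h0
    field_simp at h0
    linear_combination h0
  have hV : invV (x₁ + d * u) x₁ (x₁ + d) = u * (u - 1) := by
    rw [invV]; field_simp; ring
  have hS : invS W x₁ (x₁ + d) = 1 / q - q := by
    rw [invS, hb4, hb2]; field_simp; ring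
  have hM : invM W (x₁ + d * u) x₁ (x₁ + d) = (q + 1 / q) * (2 * u - 1) := by
    rw [invM, hb2]; field_simp; ring
  rw [hV, hS, hM]
  refine ⟨fun h => ?_, ?_, ?_, ?_⟩
  · rcases mul_eq_zero.1 h with h | h
    · subst h
      exact hq0 (pow_eq_zero_iff two_ne_zero |>.1 (by linear_combination -hu))
    · obtain rfl : u = 1 := by linear_combination h
      exact one_ne_zero (α := K) (by linear_combination hu)
  · field_simp; ring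
  · field_simp
    linear_combination 2 * hu
  · rw [WeierstrassCurve.c₄, WeierstrassCurve.Δ, hb8', hb6', hb4, hb2]
    field_simp
    ring

end Fermat.Agent.EC.Fifteen
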