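import Mathlib.NumberTheory.PythagoreanTriples
import Mathlib.Data.Rat.Lemmas
import Mathlib.Tactic

/-!
# The rational points of `X₀(15)`

An elementary infinite descent showing that the curve `G² = v (4v + 1) (9v - 4)` has only the
five obvious affine rational points.
-/

set_option autoImplicit false

namespace Fermat.Agent.EC.Fifteen

private lemma not_sq_of_odd_odd (k l c : ℤ) : c ^ 2 ≠ (2 * k + 1) ^ 2 + 4 * (2 * l + 1) ^ 2 := by
  intro h
  have key : ∀ x y z : ZMod 8, z ^ 2 ≠ (2 * x + 1) ^ 2 + 4 * (2 * y + 1) ^ 2 := by decide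
  apply key (k : ZMod 8) (l : ZMod 8) (c : ZMod 8)
  simpa using congrArg (fun x : ℤ => (x : ZMod 8)) h

private lemma three_not_dvd_sq_add_sq {x y : ℤ} (hxy : IsCoprime x y) :
    ¬ (3 : ℤ) ∣ x ^ 2 + y ^ 2 := by
  intro h
  have h0 : ((x ^ 2 + y ^ 2 : ℤ) : ZMod 3) = 0 := (ZMod.intCast_zmod_eq_zero_iff_dvd _ 3).2 h
  have key : ∀ a b : ZMod 3, a ^ 2 + b ^ 2 = 0 → a = 0 ∧ b = 0 := by decide
  obtain ⟨hx, hy⟩ := key (x : ZMod 3) (y : ZMod 3) (by simpa using h0)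
  have hu := hxy.isUnit_of_dvd' ((ZMod.intCast_zmod_eq_zero_iff_dvd x 3).1 hx)
    ((ZMod.intCast_zmod_eq_zero_iff_dvd y 3).1 hy)
  norm_num [Int.isUnit_iff] at hu

/-- The step of the descent: a solution of `16g² - h² = r² - s²`, `gh = rs` gives a smaller
concordant pair. -/
private lemma descent_step {g h r s : ℤ} (hmul : g * h = r * s)
    (heq : 16 * g ^ 2 - h ^ 2 = r ^ 2 - s ^ 2) (hgh : IsCoprime g h) (hrs : IsCoprime r s)
    (hh : Odd h) (h0 : r * s ≠ 0) :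
    ∃ a d b c : ℤ, IsCoprime a d ∧ a ^ 2 + d ^ 2 = b ^ 2 ∧ a ^ 2 + 16 * d ^ 2 = c ^ 2 ∧
      a * d ≠ 0 ∧ (a * d).natAbs ≤ (r * s).natAbs := by
  have hg0 : g ≠ 0 := fun e => h0 (by rw [← hmul, e, zero_mul])
  obtain ⟨α, β, ⟨γ, rfl⟩, ⟨δ, rfl⟩, rfl⟩ :=
    exists_dvd_and_dvd_of_dvd_mul (show g ∣ r * s from hmul ▸ Dvd.intro h rfl)
  have hα : α ≠ 0 := fun e => hg0 (by rw [e, zero_mul])
  have hβ : β ≠ 0 := fun e => hg0 (by rw [e, mul_zero])
  have hhγδ : h = γ * δ := mul_left_cancel₀ hg0 (by linear_combination hmul)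
  subst hhγδ
  have hδ : δ ≠ 0 := fun e => h0 (by rw [e]; ring)
  have hαδ : IsCoprime α δ := hgh.of_mul_left_left.of_mul_right_right
  have hβγ : IsCoprime β γ := hgh.of_mul_left_right.of_mul_right_left
  have heq' : α ^ 2 * (16 * β ^ 2 - γ ^ 2) = δ ^ 2 * (γ ^ 2 - β ^ 2) := by
    linear_combination heq
  obtain ⟨k, hk⟩ : δ ^ 2 ∣ 16 * β ^ 2 - γ ^ 2 :=
    (hαδ.symm.pow : IsCoprime (δ ^ 2) (α ^ 2)).dvd_of_dvd_mul_left ⟨_, heq'⟩
  have hk' : γ ^ 2 - β ^ 2 = k * α ^ 2 := by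
    refine mul_left_cancel₀ (pow_ne_zero 2 hδ) ?_
    linear_combination α ^ 2 * hk - heq'
  have hsum : 15 * β ^ 2 = k * (α ^ 2 + δ ^ 2) := by linear_combination hk + hk'
  have hkβ : IsCoprime k β := by
    have h1 : IsCoprime (γ ^ 2) β := hβγ.symm.pow_left
    have h2 : IsCoprime (γ ^ 2 - β ^ 2) β := by
      have := h1.add_mul_right_left (-β)
      rwa [show γ ^ 2 + -β * β = γ ^ 2 - β ^ 2 by ring] at this
    rw [hk'] at h2
    exact h2.of_mul_left_left
  have hk15 : k ∣ 15 := (hkβ.pow_right : IsCoprime k (β ^ 2)).dvd_of_dvd_mul_right ⟨_, hsum⟩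
  have hkpos : 0 < k := by
    have h1 : 0 < α ^ 2 + δ ^ 2 := by positivity
    have h2 : 0 < k * (α ^ 2 + δ ^ 2) := hsum ▸ (by positivity)
    exact pos_of_mul_pos_left h2 h1.le
  have hk3 : (3 : ℤ) ∣ k := by
    have h15 : (3 : ℤ) ∣ k * (α ^ 2 + δ ^ 2) := ⟨5 * β ^ 2, by linear_combination -hsum⟩
    exact (Int.prime_three.dvd_or_dvd h15).resolve_right (three_not_dvd_sq_add_sq hαδ)
  have hk_cases : k = 3 ∨ k = 15 := by
    have := Int.le_of_dvd (by norm_num) hk15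
    interval_cases k <;> omega
  rcases hk_cases with rfl | rfl
  · exfalso
    have hodd : ∀ x : ℤ, Odd x → ((x : ZMod 8)) ^ 2 = 1 := by
      rintro x ⟨t, rfl⟩
      have key : ∀ z : ZMod 8, (2 * z + 1) ^ 2 = 1 := by decide
      simpa using key (t : ZMod 8)
    have hγ2 := hodd γ (Int.odd_mul.1 hh).1
    have hδ2 := hodd δ (Int.odd_mul.1 hh).2
    have e1 : (5 : ℤ) * β ^ 2 = α ^ 2 + δ ^ 2 := by linarith
    have e2 : γ ^ 2 = β ^ 2 + 3 * α ^ 2 := by linarith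
    have e1' := congrArg (fun x : ℤ => (x : ZMod 8)) e1
    have e2' := congrArg (fun x : ℤ => (x : ZMod 8)) e2
    push_cast at e1' e2'
    rw [hδ2] at e1'
    rw [hγ2] at e2'
    have key : ∀ a b : ZMod 8, ¬ (5 * b ^ 2 = a ^ 2 + 1 ∧ 1 = b ^ 2 + 3 * a ^ 2) := by decide
    exact key (α : ZMod 8) (β : ZMod 8) ⟨e1', e2'⟩
  · refine ⟨δ, α, β, γ, hαδ.symm, by linarith, by linarith, mul_ne_zero hδ hα, ?_⟩
    refine Nat.le_of_dvd (Int.natAbs_pos.2 h0) (Int.natAbs_dvd_natAbs.2 ⟨β * γ, by ring⟩)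

/-- There is no nontrivial concordant pair `a² + d² = □`, `a² + 16d² = □`. -/
lemma concordant_sixteen {a d b c : ℤ} (had : IsCoprime a d) (hb : a ^ 2 + d ^ 2 = b ^ 2)
    (hc : a ^ 2 + 16 * d ^ 2 = c ^ 2) : a * d = 0 := by
  induction hn : (a * d).natAbs using Nat.strong_induction_on generalizing a d b c with
  | _ n ih =>
  subst hn
  by_contra h0
  obtain ⟨ha0, hd0⟩ := mul_ne_zero_iff.1 h0
  rcases Int.even_or_odd a with ⟨a₁, ha⟩ | haodd
  · obtain ⟨l, hl⟩ : Odd d := by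
      rcases Int.even_or_odd d with ⟨d₁, hd⟩ | hd
      · exfalso
        have hu := had.isUnit_of_dvd' (⟨a₁, by omega⟩ : (2 : ℤ) ∣ a) ⟨d₁, by omega⟩
        norm_num [Int.isUnit_iff] at hu
      · exact hd
    obtain ⟨c₁, rfl⟩ : (2 : ℤ) ∣ c :=
      Int.prime_two.dvd_of_dvd_pow (n := 2) ⟨2 * a₁ ^ 2 + 8 * d ^ 2, by subst ha; linarith⟩
    rcases Int.even_or_odd a₁ with ⟨a₂, ha'⟩ | ⟨k, hk⟩
    · obtain ⟨c₂, rfl⟩ : (2 : ℤ) ∣ c₁ :=
        Int.prime_two.dvd_of_dvd_pow (n := 2) ⟨2 * a₂ ^ 2 + 2 * d ^ 2, by subst ha ha'; linarith⟩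
      obtain rfl : a = 4 * a₂ := by omega
      have hcop : IsCoprime d a₂ := (IsCoprime.of_mul_left_right had).symm
      have hne : d * a₂ ≠ 0 := mul_ne_zero hd0 (by omega)
      refine hne (ih _ ?_ hcop (b := c₂) (c := b) (by linarith) (by linarith) rfl)
      rw [show 4 * a₂ * d = 4 * (d * a₂) by ring, Int.natAbs_mul 4, show (4 : ℤ).natAbs = 4 from rfl]
      have := Int.natAbs_pos.2 hne
      omega
    · exact not_sq_of_odd_odd k l c₁ (by subst ha hk hl; linarith)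
  · have ha2 : a % 2 = 1 := Int.odd_iff.1 haodd
    have h4 : IsCoprime a 4 := by
      have : IsCoprime a 2 := by
        obtain ⟨t, ht⟩ := haodd
        exact ⟨1, -t, by subst ht; ring⟩
      rw [show (4 : ℤ) = 2 ^ 2 by norm_num]
      exact this.pow_right
    have hP : PythagoreanTriple a d b := by
      unfold PythagoreanTriple; linarith
    have hQ : PythagoreanTriple a (4 * d) c := by
      unfold PythagoreanTriple; linarith
    obtain ⟨r, s, hrs₁, -, hrs₂, -⟩ :=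
      PythagoreanTriple.coprime_classification.1 ⟨hP, Int.isCoprime_iff_gcd_eq_one.1 had⟩
    obtain ⟨g, h, hgh₁, -, hgh₂, hpar⟩ :=
      PythagoreanTriple.coprime_classification.1
        ⟨hQ, Int.isCoprime_iff_gcd_eq_one.1 (h4.mul_right had)⟩
    obtain ⟨har, hdr⟩ : a = r ^ 2 - s ^ 2 ∧ d = 2 * r * s := by
      rcases hrs₁ with h1 | ⟨h1, -⟩
      · exact h1
      · exfalso; rw [h1, mul_assoc, Int.mul_emod_right] at ha2; omega
    obtain ⟨hag, hdg⟩ : a = g ^ 2 - h ^ 2 ∧ 4 * d = 2 * g * h := by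
      rcases hgh₁ with h1 | ⟨h1, -⟩
      · exact h1
      · exfalso; rw [h1, mul_assoc, Int.mul_emod_right] at ha2; omega
    have hgh : g * h = 4 * (r * s) := by linarith
    have hrs : IsCoprime r s := Int.isCoprime_iff_gcd_eq_one.2 hrs₂
    have hghc : IsCoprime g h := Int.isCoprime_iff_gcd_eq_one.2 hgh₂
    have hrs0 : r * s ≠ 0 := fun e => hd0 (by rw [hdr, mul_assoc, e, mul_zero])
    -- a smaller pair
    obtain ⟨a', d', b', c', hcop, hb', hc', hne, hle⟩ : ∃ a' d' b' c' : ℤ, IsCoprime a' d' ∧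
        a' ^ 2 + d' ^ 2 = b' ^ 2 ∧ a' ^ 2 + 16 * d' ^ 2 = c' ^ 2 ∧
        a' * d' ≠ 0 ∧ (a' * d').natAbs ≤ (r * s).natAbs := by
      have key4 : ∀ x y : ℤ, Odd y → x * y = 4 * (r * s) → (4 : ℤ) ∣ x := by
        intro x y ⟨t, ht⟩ e
        refine IsCoprime.dvd_of_dvd_mul_right (z := y) ?_ ⟨_, e⟩
        have h2y : IsCoprime (2 : ℤ) y := ⟨-t, 1, by subst ht; ring⟩
        rw [show (4 : ℤ) = 2 ^ 2 by norm_num]
        exact h2y.pow_left
      rcases hpar with ⟨-, hh⟩ | ⟨hg, -⟩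
      · obtain ⟨g', rfl⟩ := key4 g h (Int.odd_iff.2 hh) hgh
        exact descent_step (g := g') (by linarith) (by linarith)
          hghc.of_mul_left_right hrs (Int.odd_iff.2 hh) hrs0
      · obtain ⟨h', rfl⟩ := key4 h g (Int.odd_iff.2 hg) (by linarith)
        obtain ⟨a', d', b', c', h1, h2, h3, h4, h5⟩ :=
          descent_step (g := h') (h := g) (r := s) (s := r) (by linarith) (by linarith)
          hghc.of_mul_right_right.symm hrs.symm (Int.odd_iff.2 hg)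
          (by rwa [mul_comm])
        exact ⟨a', d', b', c', h1, h2, h3, h4, by rwa [mul_comm r s]⟩
    refine hne (ih _ (lt_of_le_of_lt hle ?_) hcop hb' hc' rfl)
    rw [show a * d = (2 * a) * (r * s) by rw [hdr]; ring, Int.natAbs_mul (2 * a)]
    have := Int.natAbs_pos.2 hrs0
    have : 1 < (2 * a).natAbs := by
      rw [Int.natAbs_mul, show (2 : ℤ).natAbs = 2 from rfl]; have := Int.natAbs_pos.2 ha0; omega
    nlinarith

private lemma exists_sq_of_mul_eq_sq {P Q R : ℤ} (hPQ : IsCoprime P Q) (h : P * Q = R ^ 2)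
    (hP : 0 ≤ P) : ∃ p : ℤ, P = p ^ 2 := by
  obtain ⟨p, hp | hp⟩ := Int.sq_of_gcd_eq_one (Int.isCoprime_iff_gcd_eq_one.1 hPQ) h
  · exact ⟨p, hp⟩
  · exact ⟨0, by nlinarith [sq_nonneg p]⟩

/-- Two coprime pairs with `X² - Y² = 5ZW`, `Z² - W² = XY` are trivial. -/
lemma linked_pairs {X Y Z W : ℤ} (hXY : IsCoprime X Y) (hZW : IsCoprime Z W)
    (h₁ : X ^ 2 - Y ^ 2 = 5 * (Z * W)) (h₂ : Z ^ 2 - W ^ 2 = X * Y) : Z * W = 0 := by
  have hprod : (Z ^ 2 + 4 * W ^ 2) * (4 * Z ^ 2 + W ^ 2) = (X ^ 2 + Y ^ 2) ^ 2 := by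
    linear_combination (4 * (Z ^ 2 - W ^ 2 + X * Y)) * h₂ - (X ^ 2 - Y ^ 2 + 5 * (Z * W)) * h₁
  have hcop : IsCoprime (Z ^ 2 + 4 * W ^ 2) (4 * Z ^ 2 + W ^ 2) := by
    have h3 : IsCoprime (Z ^ 2 + 4 * W ^ 2) 3 := by
      refine ((Int.prime_three.coprime_iff_not_dvd).2 fun ⟨t, ht⟩ => ?_).symm
      exact three_not_dvd_sq_add_sq hZW ⟨t - W ^ 2, by linarith⟩
    have h5' : Prime (5 : ℤ) := Int.prime_ofNat_iff.2 (by norm_num)
    have h5 : IsCoprime (Z ^ 2 + 4 * W ^ 2) 5 := by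
      refine ((h5'.coprime_iff_not_dvd).2 fun hd => ?_).symm
      have hxy : (5 : ℤ) ∣ X * Y := by
        obtain ⟨t, ht⟩ := hd
        exact h₂ ▸ ⟨t - W ^ 2, by linarith⟩
      have hsum : (5 : ℤ) ∣ X ^ 2 + Y ^ 2 :=
        h5'.dvd_of_dvd_pow (hprod ▸ dvd_mul_of_dvd_left hd _)
      obtain ⟨t, ht⟩ := hsum
      rcases h5'.dvd_or_dvd hxy with hx | hy
      · obtain ⟨u, hu⟩ := hx
        have hy : (5 : ℤ) ∣ Y := h5'.dvd_of_dvd_pow (n := 2) ⟨t - 5 * u ^ 2, by subst hu; linarith⟩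
        exact h5'.not_isUnit (hXY.isUnit_of_dvd' ⟨u, hu⟩ hy)
      · obtain ⟨u, hu⟩ := hy
        have hx : (5 : ℤ) ∣ X := h5'.dvd_of_dvd_pow (n := 2) ⟨t - 5 * u ^ 2, by subst hu; linarith⟩
        exact h5'.not_isUnit (hXY.isUnit_of_dvd' hx ⟨u, hu⟩)
    obtain ⟨p, q, hpq⟩ := h3.mul_right h5
    obtain ⟨u, v, huv⟩ := (hZW.pow : IsCoprime (Z ^ 2) (W ^ 2))
    -- `15 Z² = 4 Q - P` and `15 W² = 4 P - Q`
    exact ⟨p + q * (4 * v - u), q * (4 * u - v), by linear_combination hpq + 15 * q * huv⟩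
  obtain ⟨p, hp⟩ := exists_sq_of_mul_eq_sq hcop hprod (by positivity)
  obtain ⟨q, hq⟩ := exists_sq_of_mul_eq_sq hcop.symm ((mul_comm _ _).trans hprod) (by positivity)
  rcases Int.even_or_odd Z with ⟨z, hz⟩ | ⟨z, hz⟩
  · obtain rfl : Z = 2 * z := by omega
    obtain ⟨p', rfl⟩ : (2 : ℤ) ∣ p :=
      Int.prime_two.dvd_of_dvd_pow (n := 2) ⟨2 * z ^ 2 + 2 * W ^ 2, by linarith⟩
    have h0 := concordant_sixteen (a := W) (d := z) (b := p') (c := q)
      hZW.of_mul_left_right.symm (by linarith) (by linarith)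
    linear_combination 2 * h0
  · rcases Int.even_or_odd W with ⟨w, hw⟩ | ⟨w, hw⟩
    · obtain rfl : W = 2 * w := by omega
      obtain ⟨q', rfl⟩ : (2 : ℤ) ∣ q :=
        Int.prime_two.dvd_of_dvd_pow (n := 2) ⟨2 * Z ^ 2 + 2 * w ^ 2, by linarith⟩
      have h0 := concordant_sixteen (a := Z) (d := w) (b := q') (c := p)
        hZW.of_mul_right_right (by linarith) (by linarith)
      linear_combination 2 * h0
    · exfalso
      exact not_sq_of_odd_odd z w p (by subst hz hw; linarith)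

lemma four_factor_coprime {A B C D : ℤ} (hAD : IsCoprime A D) (hBC : IsCoprime B C)
    (h : (A ^ 2 - D ^ 2) * (C ^ 2 - B ^ 2) = 5 * (A * B * C * D)) : A * B * C * D = 0 := by
  by_contra h0
  have hsub : ∀ x y : ℤ, IsCoprime x y → IsCoprime (x * y) (x ^ 2 - y ^ 2) := by
    intro x y hxy
    have h1 : IsCoprime x (x ^ 2 - y ^ 2) := by
      have := ((hxy.pow_right : IsCoprime x (y ^ 2)).neg_right).add_mul_left_right x
      rwa [show -(y ^ 2) + x * x = x ^ 2 - y ^ 2 by ring] at this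
    have h2 : IsCoprime y (x ^ 2 - y ^ 2) := by
      have := (hxy.symm.pow_right : IsCoprime y (x ^ 2)).add_mul_left_right (-y)
      rwa [show x ^ 2 + y * -y = x ^ 2 - y ^ 2 by ring] at this
    exact h1.mul_left h2
  obtain ⟨i, hi⟩ : A * D ∣ C ^ 2 - B ^ 2 :=
    (hsub A D hAD).dvd_of_dvd_mul_left ⟨5 * (B * C), by linear_combination h⟩
  obtain ⟨l, hl⟩ : C * B ∣ A ^ 2 - D ^ 2 :=
    (hsub C B hBC.symm).dvd_of_dvd_mul_right ⟨5 * (A * D), by linear_combination h⟩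
  have hli : l * i = 5 := by
    refine mul_left_cancel₀ h0 ?_
    linear_combination h - (C ^ 2 - B ^ 2) * hl - (C * B * l) * hi
  have hl' : l = 1 ∨ l = -1 ∨ l = 5 ∨ l = -5 := by
    have h5 : l.natAbs ∣ 5 := Int.natAbs_dvd_natAbs.2 (⟨i, hli.symm⟩ : l ∣ 5)
    rcases (Nat.dvd_prime (by norm_num)).1 h5 with e | e <;> omega
  rcases hl' with rfl | rfl | rfl | rfl
  · obtain rfl : i = 5 := by linarith
    have := linked_pairs hBC.symm hAD (by linear_combination hi) (by linear_combination hl)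
    exact h0 (by linear_combination (B * C) * this)
  · obtain rfl : i = -5 := by linarith
    have := linked_pairs (hBC.symm.neg_right : IsCoprime C (-B)) hAD.neg_right
      (by linear_combination hi) (by linear_combination hl)
    exact h0 (by linear_combination (-(B * C)) * this)
  · obtain rfl : i = 1 := by linarith
    have := linked_pairs hAD hBC.symm (by linear_combination hl) (by linear_combination hi)
    exact h0 (by linear_combination (A * D) * this)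
  · obtain rfl : i = -1 := by linarith
    have := linked_pairs (hAD.neg_left : IsCoprime (-A) D) hBC.symm.neg_right
      (by linear_combination hl) (by linear_combination hi)
    exact h0 (by linear_combination (-(A * D)) * this)

lemma four_factor {A B C D : ℤ}
    (h : (A ^ 2 - D ^ 2) * (C ^ 2 - B ^ 2) = 5 * (A * B * C * D)) : A * B * C * D = 0 := by
  by_contra h0
  obtain ⟨⟨⟨hA, hB⟩, hC⟩, hD⟩ : ((A ≠ 0 ∧ B ≠ 0) ∧ C ≠ 0) ∧ D ≠ 0 := by
    simpa only [mul_ne_zero_iff] using h0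
  obtain ⟨g₁, A', D', hg₁, hA'D', rfl, rfl⟩ :=
    Int.exists_gcd_one' (Int.gcd_pos_of_ne_zero_left D hA)
  obtain ⟨g₂, B', C', hg₂, hB'C', rfl, rfl⟩ :=
    Int.exists_gcd_one' (Int.gcd_pos_of_ne_zero_left C hB)
  have hg : ((g₁ : ℤ) ^ 2 * (g₂ : ℤ) ^ 2) ≠ 0 := by positivity
  have h' := four_factor_coprime (Int.isCoprime_iff_gcd_eq_one.2 hA'D')
    (Int.isCoprime_iff_gcd_eq_one.2 hB'C') (mul_left_cancel₀ hg (by linear_combination h))
  exact h0 (by linear_combination ((g₁ : ℤ) ^ 2 * (g₂ : ℤ) ^ 2) * h')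

/-- The only rational points with `y ≠ 0` on `m² = (1 - y - y²)(1 + 11y - y²)`. -/
lemma quartic_rational {y m : ℚ} (hy : y ≠ 0)
    (h : m ^ 2 = (1 - y - y ^ 2) * (1 + 11 * y - y ^ 2)) : y = -2 ∨ y = 1 / 2 := by
  obtain ⟨a, b, hb, rfl⟩ : ∃ a b : ℤ, b ≠ 0 ∧ y = a / b :=
    ⟨y.num, y.den, by exact_mod_cast y.den_nz, by exact_mod_cast (Rat.num_div_den y).symm⟩
  have hbq : (b : ℚ) ≠ 0 := by exact_mod_cast hb
  have ha : a ≠ 0 := by
    rintro rfl; simp at hy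
  obtain ⟨M, hM⟩ : IsSquare ((b ^ 2 - a * b - a ^ 2) * (b ^ 2 + 11 * a * b - a ^ 2)) := by
    rw [← Rat.isSquare_intCast_iff]
    refine ⟨m * (b : ℚ) ^ 2, ?_⟩
    field_simp at h
    push_cast
    linear_combination -h
  obtain ⟨c, hc⟩ : ∃ c, c = b ^ 2 - a ^ 2 + a * b := ⟨_, rfl⟩
  obtain ⟨k, hk⟩ : ∃ k, k = (a ^ 2 + 2 * a * b) * (b ^ 2 - 2 * a * b) := ⟨_, rfl⟩
  have hMc : (M - c) * (M + c) = 4 * k := by subst hc hk; linear_combination -hM
  obtain ⟨r, hr⟩ : (2 : ℤ) ∣ M - c := by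
    rcases Int.prime_two.dvd_or_dvd (⟨2 * k, by linarith⟩ : (2 : ℤ) ∣ (M - c) * (M + c)) with
      h2 | h2
    · exact h2
    · omega
  obtain rfl : M = 2 * r + c := by omega
  have hrs : r * (r + c) = k := by linarith
  have hk0 : k = 0 := by
    by_contra hne
    have hp0 : a ^ 2 + 2 * a * b ≠ 0 := fun e => hne (by rw [hk, e, zero_mul])
    obtain ⟨A, B, ⟨C, hC⟩, ⟨D, hD⟩, hAB⟩ :=
      exists_dvd_and_dvd_of_dvd_mul (show a ^ 2 + 2 * a * b ∣ r * (r + c) from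
        ⟨b ^ 2 - 2 * a * b, by rw [hrs, hk]⟩)
    have hCD : b ^ 2 - 2 * a * b = C * D := by
      refine mul_left_cancel₀ hp0 ?_
      rw [← hk, ← hrs, hD, hC, hAB]; ring
    have hcn : c = B * D - A * C := by linarith
    have hkABCD : k = A * B * C * D := by rw [← hrs, hD, hC]; ring
    have key : c ^ 2 - (a ^ 2 + 2 * a * b + (b ^ 2 - 2 * a * b)) ^ 2 = k := by
      subst hc hk; ring
    rw [hAB, hCD, hcn, hkABCD] at key
    exact hne (hkABCD.trans (four_factor (by linear_combination key)))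
  rw [hk] at hk0
  rcases mul_eq_zero.1 hk0 with e | e
  · left
    have : a * (a + 2 * b) = 0 := by linear_combination e
    have : a = -2 * b := by rcases mul_eq_zero.1 this with e' | e' <;> omega
    subst this; push_cast; field_simp
  · right
    have : b * (b - 2 * a) = 0 := by linear_combination e
    have : b = 2 * a := by rcases mul_eq_zero.1 this with e' | e' <;> omega
    subst this; push_cast; field_simp

/-- `X₀(15)(ℚ)`: the affine rational points of `G² = v (4v + 1) (9v - 4)`. -/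
theorem x0Fifteen_rational (v G : ℚ) (h : G ^ 2 = v * (4 * v + 1) * (9 * v - 4)) :
    v = 0 ∨ v = -1/4 ∨ v = 4/9 ∨ v = 1 ∨ v = -1/9 := by
  by_cases hv0 : v = 0
  · exact .inl hv0
  by_cases hv1 : v = 1
  · exact .inr (.inr (.inr (.inl hv1)))
  by_cases hL : G = 5 * v
  · subst hL
    have : v * ((v - 1) * (9 * v + 1)) = 0 := by linear_combination (-1/4 : ℚ) * h
    rcases mul_eq_zero.1 ((mul_eq_zero.1 this).resolve_left hv0) with e | e
    · exact absurd (by linarith) hv1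
    · right; right; right; right; linarith
  obtain ⟨L, hLdef⟩ : ∃ L, L = G - 5 * v := ⟨_, rfl⟩
  have hL0 : L ≠ 0 := by rw [hLdef]; exact sub_ne_zero.2 hL
  obtain ⟨y, hydef⟩ : ∃ y, y = 2 * (v - 1) / L := ⟨_, rfl⟩
  have hy : y ≠ 0 := by
    rw [hydef]; exact div_ne_zero (mul_ne_zero two_ne_zero (sub_ne_zero.2 hv1)) hL0
  have hquart : (-1 + y * ((18 * v + 1) * y - 5)) ^ 2 =
      (1 - y - y ^ 2) * (1 + 11 * y - y ^ 2) := by
    subst hydef
    field_simp
    subst hLdef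
    linear_combination (-144 * (v - 1) ^ 3) * h
  have hyL : y * L = 2 * (v - 1) := by rw [hydef]; field_simp
  rcases quartic_rational hy hquart with rfl | rfl
  · have hG : G = 4 * v + 1 := by linarith
    subst hG
    have : (4 * v + 1) * ((v - 1) * (9 * v + 1)) = 0 := by linear_combination -h
    rcases mul_eq_zero.1 this with e | e
    · right; left; linarith
    · rcases mul_eq_zero.1 e with e' | e'
      · exact absurd (by linarith) hv1
      · right; right; right; right; linarith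
  · have hG : G = 9 * v - 4 := by linarith
    subst hG
    have : (9 * v - 4) * ((v - 1) * (v - 1)) = 0 := by linear_combination (-1/4 : ℚ) * h
    rcases mul_eq_zero.1 this with e | e
    · right; right; left; linarith
    · rcases mul_eq_zero.1 e with e' | e' <;> exact absurd (by linarith) hv1

end Fermat.Agent.EC.Fifteen
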