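import Fermat.Agent.EC.Torsion.Rat
import Fermat.Agent.EC.DivPoly.MulFormula
import Fermat.Agent.EC.Fifteen.Algebra
import Mathlib.FieldTheory.Galois.Infinite
import Mathlib.FieldTheory.IsAlgClosed.AlgebraicClosure
import Mathlib.FieldTheory.Perfect
import Mathlib.Tactic.NormNum.Prime

/-!
# Rational `X₀(15)` invariants from reducible mod `3` and mod `5` representations
-/

namespace Fermat.Agent.EC.Fifteen

open WeierstrassCurve.Affine Polynomial
open scoped WeierstrassCurve.Affine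

local notation "Qbar" => AlgebraicClosure ℚ

/-- A reducible mod `p` representation has a point spanning a Galois-stable line. -/
theorem exists_stable_point (W : WeierstrassCurve ℚ) [W.IsElliptic] (p : ℕ) [hp : Fact p.Prime]
    (h : ¬ Point.GaloisRepIsIrreducible (K := Qbar) ℚ W.toAffine p) :
    ∃ P : (W⁄Qbar).Point, P ≠ 0 ∧ p • P = 0 ∧
      ∀ σ : Qbar ≃ₐ[ℚ] Qbar, ∃ k : ℕ, k < p ∧ k ≠ 0 ∧ σ • P = k • P := by
  have hrank : Module.finrank (ZMod p)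
      (Submodule.torsionBy ℤ (W⁄Qbar).Point p) = 2 := finrank_torsion_rat W p
  have := finite_torsion_rat W hp.out.ne_zero
  have hnt : Nontrivial (Submodule.torsionBy ℤ (W⁄Qbar).Point p) :=
    Module.nontrivial_of_finrank_pos (R := ZMod p) (by rw [hrank]; decide)
  obtain ⟨N, hst, hbot, htop⟩ : ∃ N : Submodule (ZMod p)
      (Submodule.torsionBy ℤ (W⁄Qbar).Point p),
      Point.IsGaloisStable ℚ N ∧ N ≠ ⊥ ∧ N ≠ ⊤ := by
    by_contra! hN
    exact h ⟨hnt, fun N hst => or_iff_not_imp_left.2 (hN N hst)⟩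
  obtain ⟨x, hxN, hx⟩ := Submodule.exists_mem_ne_zero_of_ne_bot hbot
  have hN : N = Submodule.span (ZMod p) {x} := by
    refine (Submodule.eq_of_le_of_finrank_le
      ((Submodule.span_singleton_le_iff_mem _ _).2 hxN) ?_).symm
    rw [finrank_span_singleton hx]
    have := Submodule.finrank_lt htop
    rw [hrank] at this
    omega
  refine ⟨(x : (W⁄Qbar).Point), fun h0 => hx (Subtype.ext h0), ?_, fun σ => ?_⟩
  · rw [← natCast_zsmul]
    exact (Submodule.mem_torsionBy_iff _ _).1 x.2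
  · obtain ⟨c, hc⟩ := Submodule.mem_span_singleton.1 (hN ▸ hst σ x hxN)
    have hσ : σ • x = c.val • x := by
      rw [← hc, ← Nat.cast_smul_eq_nsmul (ZMod p), ZMod.natCast_zmod_val]
    refine ⟨c.val, c.val_lt, fun h0 => hx ?_, congrArg Subtype.val hσ⟩
    rw [h0, zero_smul] at hσ
    exact (smul_eq_zero_iff_eq σ).1 hσ

variable (W : WeierstrassCurve ℚ)

theorem eval_Ψ₃_eq_psiThree (x : Qbar) : (W⁄Qbar).Ψ₃.eval x = psiThree (W⁄Qbar) x := by
  simp [WeierstrassCurve.Ψ₃, psiThree]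

theorem eval_Ψ₂Sq_eq_psiTwoSq (x : Qbar) : (W⁄Qbar).Ψ₂Sq.eval x = psiTwoSq (W⁄Qbar) x := by
  simp [WeierstrassCurve.Ψ₂Sq, psiTwoSq]

theorem eval_Φ_two (x : Qbar) :
    ((W⁄Qbar).Φ 2).eval x = x * psiTwoSq (W⁄Qbar) x - psiThree (W⁄Qbar) x := by
  simp [WeierstrassCurve.Φ_two, psiTwoSq, psiThree]
  ring

theorem mem_range_of_fixed {z : Qbar} (h : ∀ σ : Qbar ≃ₐ[ℚ] Qbar, σ z = z) :
    ∃ r : ℚ, algebraMap ℚ Qbar r = z :=
  have : Algebra.IsAlgebraic ℚ Qbar := AlgebraicClosure.isAlgebraic ℚ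
  have : IsAlgClosure ℚ Qbar := ⟨inferInstance, inferInstance⟩
  have : IsGalois ℚ Qbar := IsAlgClosure.isGalois ℚ Qbar
  (InfiniteGalois.mem_range_algebraMap_iff_fixed z).2 h

/-- Doubling in terms of `x`. -/
theorem exists_double {x y : Qbar} (h : (W⁄Qbar).Nonsingular x y)
    (h2 : 2 • Point.some x y h ≠ 0) :
    ∃ x' y' h', 2 • Point.some x y h = Point.some x' y' h' ∧
      psiTwoSq (W⁄Qbar) x ≠ 0 ∧
      (x' - x) * psiTwoSq (W⁄Qbar) x = -psiThree (W⁄Qbar) x := by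
  rw [← natCast_zsmul] at h2 ⊢
  have hn : ((W⁄Qbar).ΨSq 2).eval x ≠ 0 := fun h0 =>
    h2 ((zsmul_some_eq_zero_iff h 2).2 h0)
  obtain ⟨y', h', e⟩ := zsmul_some_eq_some h 2 hn
  have hψ : psiTwoSq (W⁄Qbar) x ≠ 0 := by
    rwa [WeierstrassCurve.ΨSq_two, eval_Ψ₂Sq_eq_psiTwoSq] at hn
  refine ⟨_, y', h', e, hψ, ?_⟩
  rw [WeierstrassCurve.ΨSq_two, eval_Ψ₂Sq_eq_psiTwoSq, eval_Φ_two]
  field_simp
  ring

/-- The data of a stable `3`-line: a rational root of `ψ₃`. -/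
theorem exists_threeRoot [W.IsElliptic]
    (h : ¬ Point.GaloisRepIsIrreducible (K := Qbar) ℚ W.toAffine 3) :
    ∃ x₀ : Qbar, psiThree (W⁄Qbar) x₀ = 0 ∧ ∀ σ : Qbar ≃ₐ[ℚ] Qbar, σ x₀ = x₀ := by
  have : Fact (Nat.Prime 3) := ⟨Nat.prime_three⟩
  obtain ⟨_ | ⟨x, y, hns⟩, hP, hP3, hσ⟩ := exists_stable_point W 3 h
  · exact absurd rfl hP
  refine ⟨x, ?_, fun σ => ?_⟩
  · rw [← natCast_zsmul, zsmul_some_eq_zero_iff, Nat.cast_ofNat, WeierstrassCurve.ΨSq_three,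
      eval_pow, pow_eq_zero_iff two_ne_zero, eval_Ψ₃_eq_psiThree] at hP3
    exact hP3
  · obtain ⟨k, hk, hk0, he⟩ := hσ σ
    change Point.map σ.toAlgHom _ = _ at he
    rw [Point.map_some] at he
    interval_cases k
    · exact absurd rfl hk0
    · rw [one_smul, Point.some.injEq] at he
      exact he.1
    · rw [eq_neg_of_add_eq_zero_left ((succ_nsmul _ 2).symm.trans hP3), Point.neg_some,
        Point.some.injEq] at he
      exact he.1

/-- The data of a stable `5`-line: a stable pair of abscissae linked by doubling. -/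
theorem exists_fivePair [W.IsElliptic]
    (h : ¬ Point.GaloisRepIsIrreducible (K := Qbar) ℚ W.toAffine 5) :
    ∃ x₁ x₂ : Qbar, x₁ ≠ x₂ ∧ psiTwoSq (W⁄Qbar) x₁ ≠ 0 ∧
      (x₂ - x₁) * psiTwoSq (W⁄Qbar) x₁ = -psiThree (W⁄Qbar) x₁ ∧
      (x₁ - x₂) * psiTwoSq (W⁄Qbar) x₂ = -psiThree (W⁄Qbar) x₂ ∧
      ∀ σ : Qbar ≃ₐ[ℚ] Qbar, (σ x₁ = x₁ ∧ σ x₂ = x₂) ∨ (σ x₁ = x₂ ∧ σ x₂ = x₁) := by
  have : Fact (Nat.Prime 5) := ⟨by norm_num⟩
  obtain ⟨P, hP, hP5, hσ⟩ := exists_stable_point W 5 h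
  have hord : addOrderOf P = 5 := addOrderOf_eq_prime hP5 hP
  have hne : ∀ n : ℕ, n ≠ 0 → n < 5 → n • P ≠ 0 := fun n h0 hlt he =>
    absurd (Nat.le_of_dvd (Nat.pos_of_ne_zero h0)
      (hord ▸ addOrderOf_dvd_of_nsmul_eq_zero he)) (by omega)
  obtain _ | ⟨x₁, y₁, hns⟩ := P
  · exact absurd rfl hP
  set P : (W⁄Qbar).Point := Point.some x₁ y₁ hns with hPdef
  obtain ⟨x₂, y₂, hns₂, h2, hψ, h12⟩ := exists_double W hns (hne 2 (by omega) (by omega))
  have h4 : 2 • Point.some x₂ y₂ hns₂ = -P := by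
    rw [← h2, ← mul_nsmul, eq_neg_iff_add_eq_zero, ← succ_nsmul]
    exact hP5
  obtain ⟨x₄, y₄, hns₄, e4, -, h21⟩ := exists_double W hns₂ (by
    rw [h4]
    exact neg_ne_zero.2 hP)
  rw [h4, hPdef, Point.neg_some, Point.some.injEq] at e4
  have h3 : 3 • P = -Point.some x₂ y₂ hns₂ := by
    rw [← h2, eq_neg_iff_add_eq_zero, ← add_nsmul]
    exact hP5
  have h4' : 4 • P = -P := by
    rw [eq_neg_iff_add_eq_zero, ← succ_nsmul]
    exact hP5
  refine ⟨x₁, x₂, fun hx => ?_, hψ, h12, by rw [e4.1]; exact h21, fun σ => ?_⟩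
  · rcases (Point.X_eq_iff (h₁ := hns) (h₂ := hns₂)).1 hx with e | e
    · rw [← hPdef, ← h2, two_nsmul] at e
      exact hP (left_eq_add.1 e)
    · rw [← hPdef, ← h2, eq_neg_iff_add_eq_zero, ← succ_nsmul'] at e
      exact hne 3 (by omega) (by omega) e
  · obtain ⟨k, hk, hk0, he⟩ := hσ σ
    have he2 : σ • Point.some x₂ y₂ hns₂ = k • Point.some x₂ y₂ hns₂ := by
      rw [← h2, ← hPdef, Point.algEquiv_smul_def, map_nsmul, ← Point.algEquiv_smul_def, he,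
        smul_comm]
    have hneg2 : ∀ m : ℕ, m • Point.some x₂ y₂ hns₂ = m • 2 • P := fun m => by rw [h2]
    interval_cases k
    · exact absurd rfl hk0
    · rw [one_smul] at he he2
      rw [hPdef, Point.algEquiv_smul_def, Point.map_some, Point.some.injEq] at he
      rw [Point.algEquiv_smul_def, Point.map_some, Point.some.injEq] at he2
      exact Or.inl ⟨he.1, he2.1⟩
    · rw [h2] at he
      rw [h4, hPdef, Point.neg_some, Point.algEquiv_smul_def, Point.map_some,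
        Point.some.injEq] at he2
      rw [hPdef, Point.algEquiv_smul_def, Point.map_some, Point.some.injEq] at he
      exact Or.inr ⟨he.1, he2.1⟩
    · rw [h3, Point.neg_some, hPdef, Point.algEquiv_smul_def, Point.map_some,
        Point.some.injEq] at he
      rw [hneg2, smul_comm, h3, neg_nsmul, h4, neg_neg, hPdef, Point.algEquiv_smul_def,
        Point.map_some, Point.some.injEq] at he2
      exact Or.inr ⟨he.1, he2.1⟩
    · rw [h4', hPdef, Point.neg_some, Point.algEquiv_smul_def, Point.map_some,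
        Point.some.injEq] at he
      rw [hneg2, smul_comm, h4', neg_nsmul, h2, Point.neg_some, Point.algEquiv_smul_def,
        Point.map_some, Point.some.injEq] at he2
      exact Or.inl ⟨he.1, he2.1⟩

/-- If both the mod `3` and mod `5` representations are reducible, then `j` comes from a rational
point of `G² = v (4v + 1) (9v - 4)`. -/
theorem exists_invariants [W.IsElliptic]
    (h3 : ¬ Point.GaloisRepIsIrreducible (K := Qbar) ℚ W.toAffine 3)
    (h5 : ¬ Point.GaloisRepIsIrreducible (K := Qbar) ℚ W.toAffine 5) :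
    ∃ v G S : ℚ, v ≠ 0 ∧ G ^ 2 = v * (4 * v + 1) * (9 * v - 4) ∧
      2 * v ^ 2 * S = 3 * v * (3 * v + 1) + G * (v + 1) ∧
      W.c₄ ^ 3 * (S - 11) = W.Δ * (S ^ 2 - 12 * S + 16) ^ 3 := by
  obtain ⟨x₀, h0, hfix⟩ := exists_threeRoot W h3
  obtain ⟨x₁, x₂, hne, hψ, h12, h21, hpair⟩ := exists_fivePair W h5
  obtain ⟨hV0, hM2, hR, hj⟩ := fifteen_relations (W⁄Qbar) hne h0 hψ h12 h21
  have hb2 : ∀ σ : Qbar ≃ₐ[ℚ] Qbar, σ (W⁄Qbar).b₂ = (W⁄Qbar).b₂ := fun σ => by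
    rw [show (W⁄Qbar).b₂ = algebraMap ℚ Qbar W.b₂ from W.map_b₂ _, AlgEquiv.commutes]
  have hb4 : ∀ σ : Qbar ≃ₐ[ℚ] Qbar, σ (W⁄Qbar).b₄ = (W⁄Qbar).b₄ := fun σ => by
    rw [show (W⁄Qbar).b₄ = algebraMap ℚ Qbar W.b₄ from W.map_b₄ _, AlgEquiv.commutes]
  obtain ⟨v, hv⟩ : ∃ v : ℚ, algebraMap ℚ Qbar v = invV x₀ x₁ x₂ := mem_range_of_fixed fun σ => by
    rcases hpair σ with ⟨e₁, e₂⟩ | ⟨e₁, e₂⟩ <;>
      simp only [invV, map_div₀, map_mul, map_sub, map_pow, hfix, e₁, e₂] <;> ring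
  obtain ⟨S, hS⟩ : ∃ S : ℚ, algebraMap ℚ Qbar S = invS (W⁄Qbar) x₁ x₂ :=
    mem_range_of_fixed fun σ => by
      rcases hpair σ with ⟨e₁, e₂⟩ | ⟨e₁, e₂⟩ <;>
        simp only [invS, map_div₀, map_mul, map_add, map_sub, map_neg, map_pow, map_ofNat,
          hb2, hb4, e₁, e₂] <;> ring
  obtain ⟨M, hM⟩ : ∃ M : ℚ, algebraMap ℚ Qbar M = invM (W⁄Qbar) x₀ x₁ x₂ :=
    mem_range_of_fixed fun σ => by
      rcases hpair σ with ⟨e₁, e₂⟩ | ⟨e₁, e₂⟩ <;>
        simp only [invM, map_div₀, map_mul, map_add, map_sub, map_pow, map_ofNat,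
          hb2, hfix, e₁, e₂] <;> ring
  have inj := (algebraMap ℚ Qbar).injective
  have hv0 : v ≠ 0 := fun h => hV0 (by rw [← hv, h, map_zero])
  rw [← hv, ← hS, ← hM] at hM2 hR
  rw [← hS, show (W⁄Qbar).c₄ = algebraMap ℚ Qbar W.c₄ from W.map_c₄ _,
    show (W⁄Qbar).Δ = algebraMap ℚ Qbar W.Δ from W.map_Δ _] at hj
  have hM2' : M ^ 2 = (4 * v + 1) * (S ^ 2 + 4) := inj (by simpa using hM2)
  have hR' : M * (v + 1) + S * (3 * v + 1) = -6 * v ^ 2 := inj (by simpa using hR)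
  refine ⟨v, (M * (3 * v + 1) + S * (4 * v + 1) * (v + 1)) / (2 * v), S, hv0, ?_, ?_,
    inj (by simpa using hj)⟩
  · field_simp
    linear_combination (4 * v + 1) * (M * (v + 1) + S * (3 * v + 1) - 6 * v ^ 2) * hR'
      - 4 * v ^ 3 * hM2'
  · field_simp
    linear_combination -(3 * v + 1) * hR'

end Fermat.Agent.EC.Fifteen
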