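import Fermat.Agent.EC.Fifteen.Extract
import Fermat.Agent.EC.Fifteen.Descent
import Fermat.Prelude.Def_FLTPrelim_ModularRep
import Mathlib.Tactic.NormNum.Prime

/-!
# A semistable curve cannot be reducible both mod `3` and mod `5`
-/

namespace Fermat.Agent.EC.Fifteen

open WeierstrassCurve.Affine

theorem eq_of_invariants {v G S : ℚ} (hv : v ≠ 0) (hG : G ^ 2 = v * (4 * v + 1) * (9 * v - 4))
    (hS : 2 * v ^ 2 * S = 3 * v * (3 * v + 1) + G * (v + 1)) :
    S = 11 ∨ S = 1 ∨ S = -29 ∨ S = -3 / 2 ∨ S = 63 / 8 := by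
  rcases x0Fifteen_rational v G hG with rfl | rfl | rfl | rfl | rfl
  · exact absurd rfl hv
  · have : G = 0 := by
      apply pow_eq_zero_iff two_ne_zero |>.1
      linear_combination hG
    subst this
    refine Or.inr <| Or.inr <| Or.inr <| Or.inl ?_
    linear_combination 8 * hS
  · have : G = 0 := by
      apply pow_eq_zero_iff two_ne_zero |>.1
      linear_combination hG
    subst this
    refine Or.inr <| Or.inr <| Or.inr <| Or.inr ?_
    linear_combination (81 / 32 : ℚ) * hS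
  · have : (G - 5) * (G + 5) = 0 := by linear_combination hG
    rcases mul_eq_zero.1 this with h | h
    · exact Or.inl (by linear_combination (1 / 2 : ℚ) * hS + h)
    · exact Or.inr <| Or.inl (by linear_combination (1 / 2 : ℚ) * hS + h)
  · have : (G - 5 / 9) * (G + 5 / 9) = 0 := by linear_combination hG
    rcases mul_eq_zero.1 this with h | h
    · exact Or.inl (by linear_combination (81 / 2 : ℚ) * hS + 36 * h)
    · exact Or.inr <| Or.inr <| Or.inl (by linear_combination (81 / 2 : ℚ) * hS + 36 * h)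

theorem five_dvd_of_cube {c D a b : ℤ} (ha : ¬5 ∣ a) (hb : ¬5 ∣ b)
    {i : ℕ} (hi : i ≠ 0) (hi3 : i < 3) (h : a * c ^ 3 = 5 ^ i * b * D) : 5 ∣ c ∧ 5 ∣ D := by
  have h5 : Prime (5 : ℤ) := Int.prime_iff_natAbs_prime.2 (by norm_num)
  have hc : (5 : ℤ) ∣ c := by
    refine h5.dvd_of_dvd_pow (n := 3) (IsCoprime.dvd_of_dvd_mul_left (h5.coprime_iff_not_dvd.2 ha) ⟨5 ^ (i - 1) * b * D, ?_⟩)
    rw [h, ← pow_sub_one_mul hi]
    ring
  refine ⟨hc, ?_⟩
  obtain ⟨k, rfl⟩ := hc
  refine IsCoprime.dvd_of_dvd_mul_left (h5.coprime_iff_not_dvd.2 hb) ⟨5 ^ (3 - i - 1) * a * k ^ 3, ?_⟩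
  have h53 : (5 : ℤ) ^ 3 = 5 ^ i * (5 * 5 ^ (3 - i - 1)) := by
    rw [← pow_succ', ← pow_add]
    congr 1
    omega
  apply mul_left_cancel₀ (pow_ne_zero i (by norm_num : (5 : ℤ) ≠ 0))
  linear_combination -h + a * k ^ 3 * h53

theorem not_both_reducible (W : WeierstrassCurve ℤ) (hΔ : W.Δ ≠ 0)
    (hW : W.IsSemistableModel) (h3 : ¬ W.ModRepIsIrreducible 3) :
    W.ModRepIsIrreducible 5 := by
  by_contra h5
  have : (W.map (Int.castRingHom ℚ)).IsElliptic := ⟨by
    rw [WeierstrassCurve.map_Δ]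
    simpa using hΔ⟩
  obtain ⟨v, G, S, hv, hG, hS, hj⟩ := exists_invariants (W.map (Int.castRingHom ℚ)) h3 h5
  simp only [WeierstrassCurve.map_c₄, WeierstrassCurve.map_Δ, eq_intCast] at hj
  have key : (5 : ℤ) ∣ W.c₄ ∧ (5 : ℤ) ∣ W.Δ := by
    rcases eq_of_invariants hv hG hS with rfl | rfl | rfl | rfl | rfl
    · exfalso
      norm_num at hj
      exact hΔ hj
    · refine five_dvd_of_cube (a := -2) (b := 1) (i := 2) (by norm_num) (by norm_num) two_ne_zero
        (by norm_num) ?_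
      have : (-2 * W.c₄ ^ 3 : ℚ) = 5 ^ 2 * 1 * W.Δ := by linear_combination (1 / 5 : ℚ) * hj
      exact_mod_cast this
    · refine five_dvd_of_cube (a := -8) (b := 241 ^ 3) (i := 2) (by norm_num) (by norm_num)
        two_ne_zero (by norm_num) ?_
      have : (-8 * W.c₄ ^ 3 : ℚ) = 5 ^ 2 * 241 ^ 3 * W.Δ := by
        linear_combination (1 / 5 : ℚ) * hj
      exact_mod_cast this
    · refine five_dvd_of_cube (a := -32) (b := 29 ^ 3) (i := 1) (by norm_num) (by norm_num)
        one_ne_zero (by norm_num) ?_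
      have : (-32 * W.c₄ ^ 3 : ℚ) = 5 ^ 1 * 29 ^ 3 * W.Δ := by
        linear_combination (64 / 25 : ℚ) * hj
      exact_mod_cast this
    · refine five_dvd_of_cube (a := 32768) (b := 211 ^ 3) (i := 1) (by norm_num) (by norm_num)
        one_ne_zero (by norm_num) ?_
      have : (32768 * W.c₄ ^ 3 : ℚ) = 5 ^ 1 * 211 ^ 3 * W.Δ := by
        linear_combination -(262144 / 25 : ℚ) * hj
      exact_mod_cast this
  exact hW 5 (by norm_num) key.2 key.1

end Fermat.Agent.EC.Fifteen
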